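import Fermat.Agent.GRHBasicInequality.Terms

/-!
# The basic inequality on the Riemann hypothesis

For every finite set `S` of norms and every `ε > 0` there is `C` such that
`∑_{q ∈ S} N_q log q / (√q - 1) + r₁ (log √(8π) + π/4 + γ/2) + r₂ (log 8π + γ) ≤ (1 + ε) g + C`
for every number field with the Riemann hypothesis: positivity of `re ξ'/ξ` right of `1/2`, moved
to the half plane of convergence by finite differences.
-/

set_option autoImplicit false
set_option linter.style.haveILetI false

noncomputable section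

universe u

open NumberField InfinitePlace Module Filter Topology Set
open FA.HeckeBS FA.TsfasmanVladut FA.EulerKroneckerFamilies FA.GeneralBrauerSiegelGRH
open FA.DedekindZeroCount FA.DedekindHadamard
open Real (eulerMascheroniConstant)
open scoped Real Classical

namespace FA.GRHBasicInequality

theorem continuousAt_rates_half :
    ContinuousAt realRate (1 / 2) ∧ ContinuousAt complexRate (1 / 2) := by
  have hd : ∀ z : ℂ, 0 < z.re → ContinuousAt Complex.digamma z := fun z hz => by
    have hU : IsOpen {w : ℂ | 0 < w.re} := isOpen_lt continuous_const Complex.continuous_re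
    have hD : DifferentiableOn ℂ Complex.Gamma {w : ℂ | 0 < w.re} := fun w hw =>
      (Complex.differentiableAt_Gamma w fun m h => by
        have := congrArg Complex.re h
        simp at this
        linarith [(Nat.cast_nonneg m : (0 : ℝ) ≤ m), show 0 < w.re from hw]).differentiableWithinAt
    have hA := hD.analyticAt (hU.mem_nhds hz)
    exact hA.deriv.continuousAt.div hA.continuousAt (Complex.Gamma_ne_zero_of_re_pos hz)
  constructor
  · exact ((continuousAt_const.sub (Complex.continuous_re.continuousAt.comp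
      (ContinuousAt.comp' (g := Complex.digamma) (hd _ (by simp))
        (f := fun σ : ℝ => (σ : ℂ) / 2) (by fun_prop)))).div_const 2)
  · exact continuousAt_const.sub (Complex.continuous_re.continuousAt.comp
      (ContinuousAt.comp' (g := Complex.digamma) (hd _ (by simp)) (f := fun σ : ℝ => (σ : ℂ))
        (by fun_prop)))

theorem continuousAt_placeWeight_half (q : ℕ) :
    ContinuousAt (fun σ => placeWeight σ q) (1 / 2) := by
  rcases Nat.lt_or_ge 1 q with hq | hq
  · exact continuousAt_const.div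
      ((Real.continuousAt_const_rpow (by positivity)).sub continuousAt_const)
      (sub_pos.2 (Real.one_lt_rpow (Nat.one_lt_cast.2 hq) (by norm_num))).ne'
  · interval_cases q <;> simp [placeWeight, continuousAt_const]

theorem realRate_half :
    realRate (1 / 2) = Real.log √(8 * π) + π / 4 + eulerMascheroniConstant / 2 := by
  rw [realRate, show (((1 / 2 : ℝ) : ℂ) / 2) = (1 / 4 : ℂ) by push_cast; norm_num,
    FA.GaussDigamma.digamma_one_quarter, Complex.ofReal_re, Real.log_sqrt (by positivity),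
    Real.log_mul (by norm_num) Real.pi_ne_zero, show (8 : ℝ) = 2 ^ 3 by norm_num, Real.log_pow]
  push_cast
  ring

theorem complexRate_half :
    complexRate (1 / 2) = Real.log (8 * π) + eulerMascheroniConstant := by
  rw [complexRate, show ((1 / 2 : ℝ) : ℂ) = (1 / 2 : ℂ) by push_cast; norm_num,
    Complex.digamma_one_half, Real.log_mul two_ne_zero Real.pi_ne_zero,
    Real.log_mul (show (8 : ℝ) ≠ 0 by norm_num) Real.pi_ne_zero,
    show (8 : ℝ) = 2 ^ 3 by norm_num, Real.log_pow]
  simp [Complex.log_re]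
  ring

theorem rates_half_pos : 0 < realRate (1 / 2) ∧ 0 < complexRate (1 / 2) := by
  rw [realRate_half, complexRate_half]
  have hγ := Real.one_half_lt_eulerMascheroniConstant
  have h8 : 1 ≤ 8 * π := by linarith [Real.pi_gt_three]
  exact ⟨by linarith [Real.log_nonneg (Real.one_le_sqrt.2 h8), Real.pi_pos],
    by linarith [Real.log_nonneg h8]⟩

/-- The differences of the poles. -/
def poleDiff (σ : ℝ) (k : ℕ) : ℝ :=
  altSum k fun j : ℕ => if j = 0 then 0 else 1 / (σ + j) + 1 / (σ + j - 1)

/-- **The inequality at `σ + j`, for a fixed number of steps.** -/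
theorem weighted_le (K : Type u) [Field K] [NumberField K] (hRH : RHFor K) {σ : ℝ}
    (hσ : 1 / 2 < σ) (hσ1 : σ ≤ 1) (k : ℕ) (S : Finset ℕ) :
    (∑ q ∈ S, (placeCount K q : ℝ) * primeWeight σ (k + 1) q) + archAt K σ ≤
      logGenus K + |poleDiff σ (k + 1)| + fdRatio σ k * finrank ℚ K +
        4 * fdRatio (σ - 1 / 2) (k + 1) * (logGenus K + 2 + archBound * finrank ℚ K) := by
  have hF : (fun j : ℕ => if j = 0 then (0 : ℝ) else (xiLog K ((σ + j : ℝ) : ℂ)).re) =
      fun j : ℕ => ((if j = 0 then 0 else logGenus K) +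
        (if j = 0 then 0 else 1 / (σ + j) + 1 / (σ + j - 1))) -
        (if j = 0 then 0 else archAt K (σ + j)) - (if j = 0 then 0 else placeSum K (σ + j)) := by
    funext j
    split_ifs with hj
    · simp
    · have : (1 : ℝ) ≤ j := Nat.one_le_cast.2 (Nat.pos_of_ne_zero hj)
      rw [re_xiLog_right K (show 1 < σ + (j : ℝ) by linarith)]
      ring
  have h := (altSum_ite_re_xiLog_le K hRH hσ hσ1 k).trans (mul_le_mul_of_nonneg_left
    (re_xiLog_two_le K) (mul_nonneg (by norm_num) (fdRatio_pos (sub_pos.2 hσ) _).le))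
  have e1 : altSum (k + 1) (fun j : ℕ => if j = 0 then 0 else logGenus K) = -logGenus K := by
    rw [altSum_ite, altSum_const (Nat.succ_pos k)]; ring
  have e2 : altSum (k + 1) (fun j : ℕ => if j = 0 then 0 else archAt K (σ + j)) =
      altSum (k + 1) (fun j : ℕ => archAt K (σ + j)) - archAt K σ := by
    rw [altSum_ite, Nat.cast_zero, add_zero]; ring
  rw [hF, altSum_sub, altSum_sub, altSum_add, e1, e2, ← poleDiff] at h
  linarith [sum_primeWeight_le K hσ (k + 1) S,
    altSum_archAt_le_fdRatio K (show 0 < σ by linarith) k, neg_abs_le (poleDiff σ (k + 1))]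

/-- **The basic inequality on the Riemann hypothesis, uniformly.** -/
theorem exists_lhs_half_le (S : Finset ℕ) {ε : ℝ} (hε : 0 < ε) : ∃ C : ℝ, 0 ≤ C ∧
    ∀ (K : Type u) [Field K] [NumberField K], RHFor K →
      lhsAt K (1 / 2) S ≤ (1 + ε) * logGenus K + C := by
  obtain ⟨A, hA, hdeg⟩ := exists_degree_le.{u}
  have hab : 0 ≤ archBound := add_nonneg (abs_nonneg _) (abs_nonneg _)
  obtain ⟨M, hM⟩ : ∃ M, M = (S.card + 3 + 4 * archBound) * A + 8 := ⟨_, rfl⟩
  have hM0 : 0 < M := hM ▸ by positivity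
  obtain ⟨η, hη⟩ : ∃ η, η = ε / M := ⟨_, rfl⟩
  have hη0 : 0 < η := hη ▸ by positivity
  have key : ∀ {f : ℝ → ℝ}, ContinuousAt f (1 / 2) → f (1 / 2) = 0 →
      ∀ᶠ σ in 𝓝[>] (1 / 2), f σ ≤ η := fun {f} hc h0 =>
    (hc.tendsto.mono_left nhdsWithin_le_nhds).eventually (eventually_le_nhds (by rwa [h0]))
  have hS := key (f := fun σ => ∑ q ∈ S, |placeWeight σ q - placeWeight (1 / 2) q|)
    (tendsto_finsetSum S fun q _ =>
      ((continuousAt_placeWeight_half q).sub continuousAt_const).abs) (by simp)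
  have hR := key (f := fun σ => |realRate σ - realRate (1 / 2)|)
    (continuousAt_rates_half.1.sub continuousAt_const).abs (by simp)
  have hC := key (f := fun σ => |complexRate σ - complexRate (1 / 2)|)
    (continuousAt_rates_half.2.sub continuousAt_const).abs (by simp)
  have h1 : ∀ᶠ σ in 𝓝[>] (1 / 2 : ℝ), σ ≤ 1 :=
    (eventually_le_nhds (by norm_num)).filter_mono nhdsWithin_le_nhds
  obtain ⟨σ, hσ, hσ1, hσS, hσR, hσC⟩ :=
    (eventually_mem_nhdsWithin.and (h1.and (hS.and (hR.and hC)))).exists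
  have hσ0 : 1 / 2 < σ := hσ
  have hk1 := (tendsto_fdRatio (show 0 < σ by linarith)).eventually (eventually_le_nhds hη0)
  have hk2 := ((tendsto_fdRatio (sub_pos.2 hσ0)).comp (tendsto_add_atTop_nat 1)).eventually
    (eventually_le_nhds hη0)
  have hk3 := (tendsto_add_atTop_nat 1).eventually (S.eventually_all.2 fun q _ =>
    eventually_primeWeight (show 0 < σ by linarith) q hη0)
  obtain ⟨k, hr1, hr2, hW⟩ := (hk1.and (hk2.and hk3)).exists
  refine ⟨|poleDiff σ (k + 1)| + 2 * ε, by positivity, fun K _ _ hRH => ?_⟩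
  have h := weighted_le K hRH hσ0 hσ1 k S
  have hn := hdeg K
  have hn0 : (0 : ℝ) ≤ finrank ℚ K := Nat.cast_nonneg _
  have hg := logGenus_nonneg K
  have a : (∑ q ∈ S, (placeCount K q : ℝ) * placeWeight σ q) -
      η * finrank ℚ K * S.card ≤ ∑ q ∈ S, (placeCount K q : ℝ) * primeWeight σ (k + 1) q := by
    rw [mul_comm (η * (finrank ℚ K : ℝ)), ← nsmul_eq_mul, ← Finset.sum_const,
      ← Finset.sum_sub_distrib]
    refine Finset.sum_le_sum fun q hq => ?_
    linarith [mul_le_mul_of_nonneg_left (hW q hq)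
      (Nat.cast_nonneg (placeCount K q) : (0 : ℝ) ≤ _),
      mul_le_mul_of_nonneg_left ((Nat.cast_le (α := ℝ)).2 (placeCount_le K q)) hη0.le]
  have b : (∑ q ∈ S, (placeCount K q : ℝ) * placeWeight (1 / 2) q) - η * finrank ℚ K ≤
      ∑ q ∈ S, (placeCount K q : ℝ) * placeWeight σ q := by
    rw [sub_le_iff_le_add, ← sub_le_iff_le_add', ← Finset.sum_sub_distrib]
    refine le_trans (Finset.sum_le_sum fun q _ => ?_) ((Finset.sum_mul ..).symm.trans_le
      (mul_le_mul_of_nonneg_right hσS hn0))
    rw [← mul_sub, mul_comm]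
    refine le_trans (le_abs_self _) ?_
    rw [abs_mul, Nat.abs_cast, abs_sub_comm]
    exact mul_le_mul_of_nonneg_left (Nat.cast_le.2 (placeCount_le K q)) (abs_nonneg _)
  have c : nrRealPlaces K * realRate (1 / 2) + nrComplexPlaces K * complexRate (1 / 2) -
      η * finrank ℚ K ≤ archAt K σ := by
    rw [abs_le] at hσR hσC
    rw [archAt, ← degree_split K]
    have r0 : (0 : ℝ) ≤ nrRealPlaces K := Nat.cast_nonneg _
    have c0 : (0 : ℝ) ≤ nrComplexPlaces K := Nat.cast_nonneg _
    linarith [mul_le_mul_of_nonneg_left hσR.1 r0, mul_le_mul_of_nonneg_left hσC.1 c0,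
      mul_nonneg hη0.le c0]
  have d1 := mul_le_mul_of_nonneg_right hr1 hn0
  have d2 := mul_le_mul_of_nonneg_right hr2
    (show 0 ≤ logGenus K + 2 + archBound * finrank ℚ K by positivity)
  have d3 := mul_le_mul_of_nonneg_left hn
    (show 0 ≤ η * (S.card + 3 + 4 * archBound) by positivity)
  have e : η * M = ε := by rw [hη]; field_simp
  rw [hM] at e
  simp only [Function.comp_apply] at d2
  have h4 : 0 ≤ η * logGenus K := mul_nonneg hη0.le hg
  have h5 : 0 ≤ η * ((S.card + 3 + 4 * archBound) * A) := by positivity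
  have e' : ε * logGenus K = η * ((S.card + 3 + 4 * archBound) * A + 8) * logGenus K := by rw [e]
  rw [lhsAt]
  linarith

/-- The left hand side against the degree. -/
theorem lhsAt_half_le_degree (S : Finset ℕ) (K : Type u) [Field K] [NumberField K] :
    lhsAt K (1 / 2) S ≤ (∑ q ∈ S, placeWeight (1 / 2) q + realRate (1 / 2) +
      complexRate (1 / 2)) * finrank ℚ K := by
  rw [lhsAt, add_mul, add_mul, Finset.sum_mul, add_assoc]
  have hn := degree_split K
  have h0 : (0 : ℝ) ≤ nrRealPlaces K := Nat.cast_nonneg _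
  have h1 : (0 : ℝ) ≤ nrComplexPlaces K := Nat.cast_nonneg _
  refine add_le_add (Finset.sum_le_sum fun q _ => ?_) (add_le_add ?_ ?_) <;>
    rw [mul_comm _ (finrank ℚ K : ℝ)]
  · exact mul_le_mul_of_nonneg_right (Nat.cast_le.2 (placeCount_le K q))
      (placeWeight_nonneg (by norm_num) q)
  · exact mul_le_mul_of_nonneg_right (by linarith) rates_half_pos.1.le
  · exact mul_le_mul_of_nonneg_right (by linarith) rates_half_pos.2.le

/-- **The inequality for large degree.** -/
theorem exists_lhs_half_le_add (S : Finset ℕ) {ε : ℝ} (hε : 0 < ε) :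
    ∃ N : ℕ, ∀ (K : Type u) [Field K] [NumberField K], RHFor K → N ≤ finrank ℚ K →
      lhsAt K (1 / 2) S ≤ logGenus K + ε * finrank ℚ K := by
  obtain ⟨M, hM⟩ : ∃ M, M = ∑ q ∈ S, placeWeight (1 / 2) q + realRate (1 / 2) +
    complexRate (1 / 2) := ⟨_, rfl⟩
  have hM0 : 0 < M := by
    have := Finset.sum_nonneg fun q (_ : q ∈ S) =>
      placeWeight_nonneg (by norm_num : (0 : ℝ) ≤ 1 / 2) q
    linarith [rates_half_pos.1, rates_half_pos.2]
  obtain ⟨δ, hδ⟩ : ∃ δ, δ = ε / (2 * M) := ⟨_, rfl⟩
  have hδ0 : 0 < δ := hδ ▸ by positivity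
  obtain ⟨C, hC0, hC⟩ := exists_lhs_half_le.{u} S hδ0
  obtain ⟨N, hN⟩ := exists_nat_ge (2 * C / ε)
  refine ⟨N, fun K _ _ hRH hn => ?_⟩
  have hCn : C ≤ ε / 2 * finrank ℚ K := by
    have h := hN.trans (Nat.cast_le.2 hn)
    rw [div_le_iff₀ hε] at h
    linarith
  have hb := hM ▸ lhsAt_half_le_degree S K
  have hn0 : (0 : ℝ) ≤ finrank ℚ K := Nat.cast_nonneg _
  have hδM : δ * (M * finrank ℚ K) = ε / 2 * finrank ℚ K := by
    rw [hδ]
    field_simp
  rcases le_or_gt (lhsAt K (1 / 2) S) (logGenus K) with h | h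
  · nlinarith
  · linarith [hC K hRH, mul_le_mul_of_nonneg_left (h.le.trans hb) hδ0.le]

end FA.GRHBasicInequality

end
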