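import Fermat.Agent.GRHBasicInequality.Main
import Fermat.Agent.StarkOdlyzko.Bound

/-!
# Families and root discriminants on the Riemann hypothesis

The inequality for converging ratios, Odlyzko's and Serre's bounds `8π e^(γ + π/2)`, `8π e^γ` for
the root discriminant, and the numbers `215`, `44.7`.
-/

set_option autoImplicit false
set_option linter.style.haveILetI false

noncomputable section

universe u

open NumberField InfinitePlace Module Filter Topology Set
open FA.TsfasmanVladut
open FA.DedekindHadamard (RHFor)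
open Real (eulerMascheroniConstant)
open scoped Real Classical

namespace FA.GRHBasicInequality

section Families

variable {F : ℕ → Type u} [∀ i, Field (F i)] [∀ i, NumberField (F i)]
variable {φ : ℕ → ℝ} {φR φC : ℝ}

theorem sum_half_le (h : RatiosTend F φ φR φC) (hRH : ∀ i, RHFor (F i))
    (hg : Tendsto (fun i => logGenus (F i)) atTop atTop) (S : Finset ℕ) :
    (∑ q ∈ S, φ q * placeWeight (1 / 2) q) +
      (φR * realRate (1 / 2) + φC * complexRate (1 / 2)) ≤ 1 := by
  refine le_of_forall_pos_le_add fun ε hε => ?_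
  obtain ⟨C, -, hC⟩ := exists_lhs_half_le.{u} S hε
  have hl : Tendsto (fun i => lhsAt (F i) (1 / 2) S / logGenus (F i)) atTop
      (𝓝 ((∑ q ∈ S, φ q * placeWeight (1 / 2) q) +
        (φR * realRate (1 / 2) + φC * complexRate (1 / 2)))) := by
    refine ((tendsto_finsetSum S fun q _ => (h.finite q).mul_const (placeWeight (1 / 2) q)).add
      ((h.real.mul_const _).add (h.complex.mul_const _))).congr fun i => ?_
    rw [lhsAt, add_div, add_div, Finset.sum_div]
    simp only [div_mul_eq_mul_div]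
  have hu : Tendsto (fun i => (1 + ε) + C * (logGenus (F i))⁻¹) atTop (𝓝 ((1 + ε) + C * 0)) :=
    ((tendsto_inv_atTop_zero.comp hg).const_mul C).const_add _
  rw [mul_zero, add_zero] at hu
  refine le_of_tendsto_of_tendsto hl hu ?_
  filter_upwards [hg.eventually_gt_atTop 0] with i hi
  rw [div_le_iff₀ hi, add_mul (1 + ε), mul_assoc, inv_mul_cancel₀ hi.ne', mul_one]
  exact hC (F i) (hRH i)

/-- **The inequality of Tsfasman and Vlăduţ on the Riemann hypothesis.** -/
theorem basic_inequality_half (h : RatiosTend F φ φR φC) (hRH : ∀ i, RHFor (F i))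
    (hg : Tendsto (fun i => logGenus (F i)) atTop atTop) :
    Summable (fun q => φ q * placeWeight (1 / 2) q) ∧
      (∑' q, φ q * placeWeight (1 / 2) q) +
        (φR * realRate (1 / 2) + φC * complexRate (1 / 2)) ≤ 1 := by
  have hnn : ∀ q, 0 ≤ φ q * placeWeight (1 / 2) q := fun q =>
    mul_nonneg (h.nonneg q) (placeWeight_nonneg (by norm_num) q)
  have hb : ∀ S : Finset ℕ, ∑ q ∈ S, φ q * placeWeight (1 / 2) q ≤
      1 - (φR * realRate (1 / 2) + φC * complexRate (1 / 2)) := fun S => by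
    linarith [sum_half_le h hRH hg S]
  have hs := summable_of_sum_le hnn hb
  exact ⟨hs, by linarith [hs.tsum_le_of_sum_le hb]⟩

end Families

theorem log_grhReal :
    Real.log (8 * π * Real.exp (eulerMascheroniConstant + π / 2)) = 2 * realRate (1 / 2) := by
  rw [realRate_half, Real.log_mul (by positivity) (Real.exp_pos _).ne', Real.log_exp,
    Real.log_sqrt (by positivity)]
  ring

theorem log_grhComplex :
    Real.log (8 * π * Real.exp eulerMascheroniConstant) = complexRate (1 / 2) := by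
  rw [complexRate_half, Real.log_mul (by positivity) (Real.exp_pos _).ne', Real.log_exp]

/-- `(8π e^(γ+π/2))^(r₁/n) (8π e^γ)^(2r₂/n)`. -/
def grhConst (K : Type u) [Field K] [NumberField K] : ℝ :=
  (8 * π * Real.exp (eulerMascheroniConstant + π / 2)) ^ ((nrRealPlaces K : ℝ) / finrank ℚ K) *
    (8 * π * Real.exp eulerMascheroniConstant) ^ (2 * (nrComplexPlaces K : ℝ) / finrank ℚ K)

theorem log_grhConst (K : Type u) [Field K] [NumberField K] :
    Real.log (grhConst K) = (nrRealPlaces K * (2 * realRate (1 / 2)) +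
      2 * nrComplexPlaces K * complexRate (1 / 2)) / finrank ℚ K := by
  rw [grhConst, Real.log_mul (by positivity) (by positivity), Real.log_rpow (by positivity),
    Real.log_rpow (by positivity), log_grhReal, log_grhComplex]
  ring

/-- **The logarithm of the root discriminant.** -/
theorem exists_log_rootDiscr_half (S : Finset ℕ) {ε : ℝ} (hε : 0 < ε) :
    ∃ N : ℕ, ∀ (K : Type u) [Field K] [NumberField K], RHFor K → N ≤ finrank ℚ K →
      2 * (∑ q ∈ S, (placeCount K q : ℝ) / finrank ℚ K * placeWeight (1 / 2) q) +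
          Real.log (grhConst K) - ε ≤ Real.log (((discr K).natAbs : ℕ) : ℝ) / finrank ℚ K := by
  obtain ⟨N, hN⟩ := exists_lhs_half_le_add.{u} S (half_pos hε)
  refine ⟨N, fun K _ _ hRH hn => ?_⟩
  have h := hN K hRH hn
  have hn0 : (0 : ℝ) < finrank ℚ K := Nat.cast_pos.2 finrank_pos
  rw [grhConst, Real.log_mul (by positivity) (by positivity), Real.log_rpow (by positivity),
    Real.log_rpow (by positivity), log_grhReal, log_grhComplex, le_div_iff₀ hn0]
  simp only [div_mul_eq_mul_div]
  rw [← Finset.sum_div, sub_mul, add_mul, add_mul, mul_assoc, div_mul_cancel₀ _ hn0.ne',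
    div_mul_cancel₀ _ hn0.ne', div_mul_cancel₀ _ hn0.ne']
  rw [lhsAt, logGenus] at h
  linarith

/-- **The root discriminant.** -/
theorem exists_rootDiscr_half {ε : ℝ} (hε : 0 < ε) :
    ∃ N : ℕ, ∀ (K : Type u) [Field K] [NumberField K], RHFor K → N ≤ finrank ℚ K →
      grhConst K - ε ≤ |((discr K : ℤ) : ℝ)| ^ ((finrank ℚ K : ℝ)⁻¹) := by
  obtain ⟨M, hM⟩ : ∃ M, M = 8 * π * Real.exp (eulerMascheroniConstant + π / 2) := ⟨_, rfl⟩
  have hM1 : 8 * π * Real.exp eulerMascheroniConstant ≤ M := hM ▸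
    mul_le_mul_of_nonneg_left (Real.exp_le_exp.2 (by linarith [Real.pi_pos])) (by positivity)
  have hM0 : 0 < M := hM ▸ by positivity
  obtain ⟨N, hN⟩ := exists_log_rootDiscr_half.{u} ∅ (div_pos hε hM0)
  refine ⟨N, fun K _ _ hRH hn => ?_⟩
  have h := hN K hRH hn
  have hn0 : (0 : ℝ) < finrank ℚ K := Nat.cast_pos.2 finrank_pos
  have hd : 0 < |((discr K : ℤ) : ℝ)| := abs_pos.2 (Int.cast_ne_zero.2 (discr_ne_zero K))
  have hX : 0 < grhConst K := by rw [grhConst]; positivity
  have hXM : grhConst K ≤ M := by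
    rw [grhConst, ← hM]
    calc _ ≤ M ^ ((nrRealPlaces K : ℝ) / finrank ℚ K) *
          M ^ (2 * (nrComplexPlaces K : ℝ) / finrank ℚ K) :=
          mul_le_mul_of_nonneg_left (Real.rpow_le_rpow (by positivity) hM1 (by positivity))
            (by positivity)
      _ = M := by
          rw [← Real.rpow_add hM0, ← add_div, degree_split K, div_self hn0.ne', Real.rpow_one]
  rw [Finset.sum_empty, mul_zero, zero_add, show (((discr K).natAbs : ℕ) : ℝ) =
    |((discr K : ℤ) : ℝ)| by rw [← Int.cast_abs, ← Int.natCast_natAbs, Int.cast_natCast],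
    div_eq_mul_inv (Real.log |((discr K : ℤ) : ℝ)|), ← Real.exp_le_exp, Real.exp_sub,
    Real.exp_log hX, ← Real.rpow_def_of_pos hd, div_le_iff₀ (Real.exp_pos _)] at h
  obtain ⟨D, hD⟩ : ∃ D, D = |((discr K : ℤ) : ℝ)| ^ ((finrank ℚ K : ℝ)⁻¹) := ⟨_, rfl⟩
  rw [← hD] at h ⊢
  have h1 : 1 - ε / M ≤ Real.exp (-(ε / M)) := by linarith [Real.add_one_le_exp (-(ε / M))]
  have h2 : grhConst K * Real.exp (-(ε / M)) ≤ D := by
    rw [Real.exp_neg, ← div_eq_mul_inv, div_le_iff₀ (Real.exp_pos _)]
    exact h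
  have h3 : grhConst K * (ε / M) ≤ ε := by
    rw [mul_div_assoc', div_le_iff₀ hM0, mul_comm ε]
    exact mul_le_mul_of_nonneg_right hXM hε.le
  linarith [mul_le_mul_of_nonneg_left h1 hX.le]

theorem grhConst_real (K : Type u) [Field K] [NumberField K] [IsTotallyReal K] :
    grhConst K = 8 * π * Real.exp (eulerMascheroniConstant + π / 2) := by
  have h2 : nrComplexPlaces K = 0 := IsTotallyReal.nrComplexPlaces_eq_zero K
  have h := degree_split K
  rw [h2, Nat.cast_zero, mul_zero, add_zero] at h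
  have hn : (finrank ℚ K : ℝ) ≠ 0 := Nat.cast_ne_zero.2 finrank_pos.ne'
  rw [grhConst, h, h2, Nat.cast_zero, mul_zero, zero_div, Real.rpow_zero, mul_one, div_self hn,
    Real.rpow_one]

theorem grhConst_complex (K : Type u) [Field K] [NumberField K] [IsTotallyComplex K] :
    grhConst K = 8 * π * Real.exp eulerMascheroniConstant := by
  have h2 : nrRealPlaces K = 0 := IsTotallyComplex.nrRealPlaces_eq_zero K
  have h := degree_split K
  rw [h2, Nat.cast_zero, zero_add] at h
  have hn : (finrank ℚ K : ℝ) ≠ 0 := Nat.cast_ne_zero.2 finrank_pos.ne'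
  rw [grhConst, h, h2, Nat.cast_zero, zero_div, Real.rpow_zero, one_mul, div_self hn, Real.rpow_one]

/-- `H_n - log n - 1/(2n)`. -/
def gammaLower (n : ℕ) : ℝ := (harmonic n : ℝ) - Real.log n - 1 / (2 * n)

theorem gammaLower_le_succ {n : ℕ} (hn : 1 ≤ n) : gammaLower n ≤ gammaLower (n + 1) := by
  have h0 : (0 : ℝ) < n := Nat.cast_pos.2 hn
  have h1 : Real.log (((n : ℝ) + 1) / n) ≤
      Real.sinh (Real.log (((n : ℝ) + 1) / n)) :=
    Real.self_le_sinh_iff.2 (Real.log_nonneg (by rw [le_div_iff₀ h0]; linarith))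
  rw [Real.sinh_log (by positivity), Real.log_div (by positivity) h0.ne', inv_div] at h1
  have e : (((n : ℝ) + 1) / n - n / ((n : ℝ) + 1)) / 2 =
      ((n : ℝ) + 1)⁻¹ + 1 / (2 * n) - 1 / (2 * ((n : ℝ) + 1)) := by
    field_simp
    ring
  rw [gammaLower, gammaLower, harmonic_succ]
  push_cast
  linarith

/-- **`γ > 0.5759`.** -/
theorem eulerMascheroni_gt : 0.5759 < eulerMascheroniConstant := by
  have hlim : Tendsto gammaLower atTop (𝓝 eulerMascheroniConstant) := by
    have h1 : Tendsto (fun n : ℕ => 1 / (2 * (n : ℝ))) atTop (𝓝 0) :=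
      (tendsto_natCast_atTop_atTop.const_mul_atTop (two_pos (α := ℝ))).const_div_atTop 1
    have h2 := Real.tendsto_harmonic_sub_log.sub h1
    rwa [sub_zero] at h2
  have hmono : ∀ n, 8 ≤ n → gammaLower 8 ≤ gammaLower n := fun n hn => by
    induction n, hn using Nat.le_induction with
    | base => exact le_rfl
    | succ m hm ih => exact ih.trans (gammaLower_le_succ (by omega))
  refine lt_of_lt_of_le ?_ (ge_of_tendsto hlim (eventually_atTop.2 ⟨8, hmono⟩))
  rw [gammaLower]
  norm_num [harmonic, Finset.sum_range_succ]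
  rw [show (8 : ℝ) = 2 ^ 3 by norm_num, Real.log_pow]
  push_cast
  linarith [Real.log_two_lt_d9]

/-- **`215` and `44.7`.** -/
theorem numeric_grh : (215 : ℝ) < 8 * π * Real.exp (eulerMascheroniConstant + π / 2) ∧
    (44.7 : ℝ) < 8 * π * Real.exp eulerMascheroniConstant := by
  have hγ := eulerMascheroni_gt
  have hπ := Real.pi_gt_d6
  have h2 : (7.389 : ℝ) < Real.exp 2 := by
    rw [show (2 : ℝ) = 1 + 1 by norm_num, Real.exp_add]
    nlinarith [Real.exp_one_gt_d9]
  have h3 : (1.1579 : ℝ) ≤ Real.exp 0.146696 := by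
    refine le_trans ?_ (Real.sum_le_exp_of_nonneg (by norm_num) 4)
    norm_num [Finset.sum_range_succ, Nat.factorial]
  have h4 : (1.7786 : ℝ) ≤ Real.exp 0.5759 := by
    refine le_trans ?_ (Real.sum_le_exp_of_nonneg (by norm_num) 6)
    norm_num [Finset.sum_range_succ, Nat.factorial]
  constructor
  · have h : Real.exp 2 * Real.exp 0.146696 ≤ Real.exp (eulerMascheroniConstant + π / 2) := by
      rw [← Real.exp_add]
      exact Real.exp_le_exp.2 (by linarith)
    nlinarith [mul_le_mul h2.le h3 (by norm_num) (Real.exp_pos 2).le]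
  · nlinarith [Real.exp_le_exp.2 hγ.le]

/-- **No unramified tower below the bound.** -/
theorem exists_unramified_bound_half (K : Type u) [Field K] [NumberField K]
    (h : |((discr K : ℤ) : ℝ)| ^ ((finrank ℚ K : ℝ)⁻¹) < grhConst K) :
    ∃ B : ℕ, ∀ (L : Type u) [Field L] [NumberField L] [Algebra K L] [IsGalois K L]
      [Algebra.Unramified (𝓞 K) (𝓞 L)] [IsUnramifiedAtInfinitePlaces K L],
        RHFor L → finrank K L ≤ B := by
  obtain ⟨δ, hδ⟩ : ∃ δ, δ = grhConst K - |((discr K : ℤ) : ℝ)| ^ ((finrank ℚ K : ℝ)⁻¹) := ⟨_, rfl⟩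
  obtain ⟨N, hN⟩ := exists_rootDiscr_half.{u} (show 0 < δ / 2 by linarith)
  refine ⟨N, fun L _ _ _ _ _ _ hRH => not_lt.1 fun hlt => ?_⟩
  haveI : FiniteDimensional K L := Module.Finite.of_restrictScalars_finite ℚ K L
  obtain ⟨m, hmd⟩ : ∃ m, m = finrank K L := ⟨_, rfl⟩
  have hm : 0 < m := hmd ▸ finrank_pos
  have hfin : finrank ℚ L = finrank ℚ K * m := by rw [hmd, Module.finrank_mul_finrank ℚ K L]
  obtain ⟨hr, hc⟩ := FA.HeckeDiff.places_of_unramified (K := K) (L := L) fun w => w.isUnramifiedIn L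
  have hconst : grhConst L = grhConst K := by
    have hm' : (m : ℝ) ≠ 0 := Nat.cast_ne_zero.2 hm.ne'
    rw [grhConst, grhConst, hr, hc, ← hmd, hfin, Nat.cast_mul, Nat.cast_mul, Nat.cast_mul,
      mul_div_mul_right _ _ hm', ← mul_assoc 2, mul_div_mul_right _ _ hm']
  have hroot : |((discr L : ℤ) : ℝ)| ^ ((finrank ℚ L : ℝ)⁻¹) =
      |((discr K : ℤ) : ℝ)| ^ ((finrank ℚ K : ℝ)⁻¹) := by
    have hd := FA.HeckeDiff.natAbs_discr_of_unramified (K := K) (L := L)
    rw [← Int.cast_abs, ← Int.cast_abs, ← Int.natCast_natAbs, ← Int.natCast_natAbs,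
      Int.cast_natCast, Int.cast_natCast, hd, ← hmd, hfin, Nat.cast_pow, Nat.cast_mul,
      ← Real.rpow_natCast, ← Real.rpow_mul (Nat.cast_nonneg _)]
    congr 1
    field_simp
  have hN' := hN L hRH (by
    rw [hfin]
    exact (hmd ▸ hlt.le).trans (Nat.le_mul_of_pos_left _ finrank_pos))
  rw [hconst, hroot] at hN'
  linarith

end FA.GRHBasicInequality

end
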