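import Fermat.Agent.EulerKroneckerFamilies.Differences
import Mathlib.NumberTheory.Harmonic.Bounds

/-!
# Differences that tend to zero

`fdRatio c k = k! / ∏_{i ≤ k} (c + i)`, the `k`-th difference of `1/(c + j)`, tends to `0` for
`c > 0`; the differences of `-ψ` along `x + j s`, `s ≤ 1`, are at most `fdRatio (x/s) / s`.
-/

set_option autoImplicit false

noncomputable section

open Filter Topology Finset
open FA.EulerKroneckerFamilies
open scoped Real

namespace FA.GRHBasicInequality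

/-- `k! / ∏_{i ≤ k} (c + i)`. -/
def fdRatio (c : ℝ) (k : ℕ) : ℝ := (k.factorial : ℝ) / ∏ i ∈ Finset.range (k + 1), (c + i)

theorem altSum_eq_fdRatio {c : ℝ} (hc : 0 < c) (k : ℕ) :
    altSum k (fun j : ℕ => (c + j)⁻¹) = fdRatio c k :=
  altSum_inv_add k fun i => (add_pos_of_pos_of_nonneg hc (Nat.cast_nonneg i)).ne'

theorem fdRatio_pos {c : ℝ} (hc : 0 < c) (k : ℕ) : 0 < fdRatio c k :=
  div_pos (Nat.cast_pos.2 k.factorial_pos)
    (Finset.prod_pos fun i _ => add_pos_of_pos_of_nonneg hc (Nat.cast_nonneg i))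

theorem fdRatio_anti {c d : ℝ} (hc : 0 < c) (hcd : c ≤ d) (k : ℕ) : fdRatio d k ≤ fdRatio c k :=
  div_le_div_of_nonneg_left (Nat.cast_nonneg _)
    (Finset.prod_pos fun i _ => add_pos_of_pos_of_nonneg hc (Nat.cast_nonneg i))
    (Finset.prod_le_prod (fun i _ => (add_pos_of_pos_of_nonneg hc (Nat.cast_nonneg i)).le)
      fun i _ => by linarith)

theorem fdRatio_succ {c : ℝ} (hc : 0 < c) (k : ℕ) :
    fdRatio c (k + 1) = fdRatio c k - fdRatio (c + 1) k := by
  rw [← altSum_eq_fdRatio hc, ← altSum_eq_fdRatio hc, ← altSum_eq_fdRatio (by linarith : 0 < c + 1),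
    altSum_succ]
  congr 2
  funext j
  push_cast
  ring_nf

theorem mul_fdRatio_le {a : ℝ} (ha : 0 < a) (k : ℕ) :
    a * (1 + a * (harmonic k : ℝ)) * fdRatio a k ≤ 1 := by
  induction k with
  | zero => simp [fdRatio, ha.ne']
  | succ k ih =>
    have h0 := fdRatio_pos ha k
    have hH : 0 ≤ (harmonic k : ℝ) := by
      simp only [harmonic, Rat.cast_sum]
      exact Finset.sum_nonneg fun i _ => by positivity
    have e : fdRatio a (k + 1) = fdRatio a k * (((k : ℝ) + 1) / (a + ((k : ℝ) + 1))) := by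
      rw [fdRatio, fdRatio, Finset.prod_range_succ _ (k + 1), Nat.factorial_succ]
      push_cast
      field_simp
    rw [e, harmonic_succ]
    push_cast
    refine le_trans ?_ ih
    rw [show a * (1 + a * ((harmonic k : ℝ) + ((k : ℝ) + 1)⁻¹)) *
        (fdRatio a k * (((k : ℝ) + 1) / (a + ((k : ℝ) + 1)))) = a * fdRatio a k *
        ((1 + a * ((harmonic k : ℝ) + ((k : ℝ) + 1)⁻¹)) * ((k : ℝ) + 1) / (a + ((k : ℝ) + 1))) by
      ring, mul_right_comm a _ (fdRatio a k)]
    refine mul_le_mul_of_nonneg_left ?_ (by positivity)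
    rw [div_le_iff₀ (by positivity)]
    field_simp
    nlinarith [mul_nonneg (mul_nonneg ha.le hH) ha.le]

/-- **The differences tend to `0`.** -/
theorem tendsto_fdRatio {a : ℝ} (ha : 0 < a) : Tendsto (fdRatio a) atTop (𝓝 0) := by
  have h : Tendsto (fun k : ℕ => (a * (1 + a * Real.log ((k : ℝ) + 1)))⁻¹) atTop (𝓝 0) :=
    (tendsto_atTop_add_const_left atTop (1 : ℝ) ((Real.tendsto_log_atTop.comp
      (tendsto_atTop_add_const_right atTop (1 : ℝ) tendsto_natCast_atTop_atTop)).const_mul_atTop ha)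
        |>.const_mul_atTop ha).inv_tendsto_atTop
  refine squeeze_zero (fun k => (fdRatio_pos ha k).le) (fun k => ?_) h
  have h1 : Real.log ((k : ℝ) + 1) ≤ (harmonic k : ℝ) := by
    have := log_add_one_le_harmonic k
    push_cast at this
    exact this
  have h0 : 0 ≤ Real.log ((k : ℝ) + 1) := Real.log_nonneg (by simp)
  have hpos : 0 < a * (1 + a * Real.log ((k : ℝ) + 1)) := by positivity
  rw [inv_eq_one_div, le_div_iff₀' hpos]
  refine le_trans (mul_le_mul_of_nonneg_right ?_ (fdRatio_pos ha k).le) (mul_fdRatio_le ha k)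
  exact mul_le_mul_of_nonneg_left (by linarith [mul_le_mul_of_nonneg_left h1 ha.le]) ha.le

/-- **The differences of `-ψ`.** -/
theorem altSum_neg_digamma_le_fdRatio (k : ℕ) {x s : ℝ} (hx : 0 < x) (hs : 0 < s) (hs1 : s ≤ 1) :
    altSum (k + 1) (fun j : ℕ => -(Complex.digamma ((x + j * s : ℝ) : ℂ)).re) ≤
      s⁻¹ * fdRatio (x / s) k := by
  have hlim : Tendsto (fun N : ℕ => altSum (k + 1) fun j : ℕ =>
      -(Real.log N - ∑ m ∈ Finset.range N, (x + j * s + m)⁻¹)) atTop
      (𝓝 (altSum (k + 1) fun j : ℕ => -(Complex.digamma ((x + j * s : ℝ) : ℂ)).re)) :=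
    tendsto_finsetSum _ fun j _ => (((Complex.continuous_re.tendsto _).comp
      (FA.GaussDigamma.tendsto_digamma (x := x + j * s) (by positivity))).neg).const_mul _
  refine le_of_tendsto' hlim fun N => ?_
  simp only [neg_sub]
  rw [altSum_sub, altSum_const (Nat.succ_pos k), sub_zero]
  have hc : 0 < x / s := div_pos hx hs
  have hterm : ∀ m : ℕ, altSum (k + 1) (fun j : ℕ => (x + j * s + m)⁻¹) ≤
      s⁻¹ * (fdRatio (x / s + m) k - fdRatio (x / s + (m + 1 : ℕ)) k) := fun m => by
    have hcm : 0 < x / s + (m : ℝ) := by positivity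
    have hle : x / s + (m : ℝ) ≤ x / s + (m : ℝ) / s :=
      add_le_add_right (by
        rw [le_div_iff₀ hs]
        exact mul_le_of_le_one_right (Nat.cast_nonneg m) hs1) _
    rw [show (fun j : ℕ => (x + j * s + (m : ℝ))⁻¹) =
      fun j : ℕ => s⁻¹ * (x / s + (m : ℝ) / s + j)⁻¹ by
      funext j
      rw [← mul_inv]
      congr 1
      field_simp
      ring, altSum_mul_left, altSum_eq_fdRatio (by positivity)]
    refine mul_le_mul_of_nonneg_left ((fdRatio_anti hcm hle _).trans_eq ?_) (inv_nonneg.2 hs.le)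
    rw [fdRatio_succ hcm]
    push_cast
    rw [add_assoc]
  calc altSum (k + 1) (fun j : ℕ => ∑ m ∈ Finset.range N, (x + j * s + m)⁻¹)
      = ∑ m ∈ Finset.range N, altSum (k + 1) fun j : ℕ => (x + j * s + m)⁻¹ := by
        simp only [altSum, Finset.mul_sum]
        rw [Finset.sum_comm]
    _ ≤ ∑ m ∈ Finset.range N,
        s⁻¹ * (fdRatio (x / s + m) k - fdRatio (x / s + (m + 1 : ℕ)) k) :=
      Finset.sum_le_sum fun m _ => hterm m
    _ ≤ _ := by
      rw [← Finset.mul_sum, Finset.sum_range_sub' (fun m : ℕ => fdRatio (x / s + m) k),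
        Nat.cast_zero, add_zero]
      exact mul_le_mul_of_nonneg_left (sub_le_self _ (fdRatio_pos (by positivity) k).le)
        (inv_nonneg.2 hs.le)

end FA.GRHBasicInequality

end
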