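import Fermat.Agent.EulerKroneckerFamilies.Ihara
import Fermat.Agent.GRHBasicInequality.Kernel

/-!
# The zeros, the primes and the infinite places at `σ + j`

For `1/2 < σ ≤ 1` the differences of `re ξ'/ξ` at `σ + j` are, on the Riemann hypothesis, at most
`4 fdRatio (σ - 1/2)` times its value at `2`, and it is positive at `σ`. The weight that a place of
norm `q` gets from `j ≥ 1` tends to `log q / (q ^ σ - 1)`.
-/

set_option autoImplicit false
set_option linter.style.haveILetI false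

noncomputable section

universe u

open NumberField InfinitePlace Module Filter Topology Set IsDedekindDomain Ideal
open FA.HeckeBS FA.TsfasmanVladut FA.EulerKroneckerFamilies
open FA.DedekindZeroCount FA.DedekindHadamard
open scoped Real Classical

namespace FA.GRHBasicInequality

variable (K : Type u) [Field K] [NumberField K]

theorem altSum_reTerm_le (hRH : RHFor K) {σ : ℝ} (hσ : 1 / 2 < σ) (hσ1 : σ ≤ 1) (k : ℕ) (ρ : ℂ) :
    altSum (k + 1) (fun j : ℕ => reTerm K ((σ + j : ℝ) : ℂ) ρ) ≤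
      4 * fdRatio (σ - 1 / 2) (k + 1) * reTerm K ((2 : ℝ) : ℂ) ρ := by
  rcases eq_or_ne (xiMult K ρ) 0 with hm | hm
  · simp [altSum, reTerm, hm]
  have hρ := re_eq_half_of_rh K hRH ((xiMult_ne_zero_iff K).1 hm)
  simp only [reTerm]
  rw [altSum_mul_left, mul_left_comm]
  refine mul_le_mul_of_nonneg_left ?_ (Nat.cast_nonneg _)
  obtain ⟨a, ha⟩ : ∃ a, a = σ - 1 / 2 := ⟨_, rfl⟩
  have ha0 : 0 < a := by linarith
  obtain ⟨c, hc⟩ : ∃ c : ℂ, c = (σ : ℂ) - ρ := ⟨_, rfl⟩
  have hcre : c.re = a := by rw [hc]; simp [hρ, ha]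
  have hcim : c.im = -ρ.im := by rw [hc]; simp
  have hi : ∀ i : ℕ, a + i ≤ ‖c + i‖ := fun i =>
    le_trans (by simp [hcre]) (Complex.re_le_norm _)
  have hne : ∀ i : ℕ, c + i ≠ 0 := fun i =>
    norm_pos_iff.1 (lt_of_lt_of_le (add_pos_of_pos_of_nonneg ha0 (Nat.cast_nonneg i)) (hi i))
  have e : altSum (k + 1) (fun j : ℕ => ((((σ + j : ℝ) : ℂ) - ρ)⁻¹).re) =
      (altSum (k + 1) (fun j : ℕ => (c + j)⁻¹)).re := by
    simp only [altSum, Complex.re_sum]
    refine Finset.sum_congr rfl fun j _ => ?_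
    rw [show ((-1) ^ j * ((k + 1).choose j : ℂ)) = (((-1) ^ j * ((k + 1).choose j : ℝ) : ℝ) : ℂ) by
      push_cast; rfl, Complex.re_ofReal_mul, show ((σ + j : ℝ) : ℂ) - ρ = c + j by
        rw [hc]; push_cast; ring]
  rw [e, altSum_inv_add _ hne, ← ha]
  refine (Complex.re_le_norm _).trans ?_
  rw [norm_div, Complex.norm_natCast, norm_prod, fdRatio]
  have hsplit : ∀ f : ℕ → ℝ, ∏ i ∈ Finset.range (k + 1 + 1), f i =
      f 0 * f 1 * ∏ i ∈ Finset.range k, f (i + 2) := fun f => by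
    rw [Finset.prod_range_succ', Finset.prod_range_succ']
    ring
  rw [hsplit fun i => ‖c + i‖, hsplit fun i : ℕ => a + i]
  simp only [Nat.cast_zero, add_zero, Nat.cast_one]
  obtain ⟨B, hB⟩ : ∃ B, B = ∏ i ∈ Finset.range k, (a + ((i + 2 : ℕ) : ℝ)) := ⟨_, rfl⟩
  obtain ⟨Bc, hBc⟩ : ∃ Bc, Bc = ∏ i ∈ Finset.range k, ‖c + ((i + 2 : ℕ) : ℂ)‖ := ⟨_, rfl⟩
  have hBB : B ≤ Bc := hB ▸ hBc ▸
    Finset.prod_le_prod (fun i _ => (add_pos_of_pos_of_nonneg ha0 (Nat.cast_nonneg _)).le)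
      fun i _ => hi (i + 2)
  have hB0 : 0 < B := hB ▸
    Finset.prod_pos fun i _ => add_pos_of_pos_of_nonneg ha0 (Nat.cast_nonneg _)
  rw [← hB, ← hBc]
  obtain ⟨w, hw⟩ : ∃ w, w = (2 - 1 / 2 : ℝ) * (2 - 1 / 2) + ρ.im * ρ.im := ⟨_, rfl⟩
  have hw0 : 0 < w := by rw [hw]; linarith [mul_self_nonneg ρ.im]
  have hre : ((((2 : ℝ) : ℂ) - ρ)⁻¹).re = (2 - 1 / 2) / w := by
    rw [Complex.inv_re, Complex.normSq_apply, hw]
    simp only [Complex.sub_re, Complex.sub_im, Complex.ofReal_re, Complex.ofReal_im, hρ]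
    congr 1
    ring
  have hsq : a * (a + 1) * w ≤ 6 * (‖c‖ * ‖c + 1‖) := by
    have e0 : ‖c‖ ^ 2 = a ^ 2 + ρ.im ^ 2 := by
      rw [Complex.sq_norm, Complex.normSq_apply, hcre, hcim]; ring
    have e1 : ‖c + 1‖ ^ 2 = (a + 1) ^ 2 + ρ.im ^ 2 := by
      rw [Complex.sq_norm, Complex.normSq_apply, Complex.add_re, Complex.add_im, hcre, hcim,
        Complex.one_re, Complex.one_im]
      ring
    have h1 : a ≤ ‖c‖ := by simpa using hi 0
    have h2 : a + 1 ≤ ‖c + 1‖ := by simpa using hi 1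
    have hle : ‖c‖ ≤ ‖c + 1‖ := by nlinarith [norm_nonneg c, norm_nonneg (c + 1)]
    have h3 := mul_le_mul h1 h2 (by linarith) (norm_nonneg c)
    have h4 := mul_le_mul_of_nonneg_left hle (norm_nonneg c)
    rw [hw]
    nlinarith [sq_nonneg ρ.im, mul_le_mul_of_nonneg_right
      (show a * (a + 1) ≤ 3 by nlinarith) (sq_nonneg ρ.im)]
  rw [hre, show 4 * (((k + 1).factorial : ℝ) / (a * (a + 1) * B)) * ((2 - 1 / 2) / w) =
      6 * ((k + 1).factorial : ℝ) / (a * (a + 1) * B * w) by field_simp; ring, div_le_div_iff₀ (by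
    refine mul_pos (mul_pos (norm_pos_iff.2 (by simpa using hne 0))
      (norm_pos_iff.2 (by simpa using hne 1))) (hB0.trans_le hBB)) (by positivity)]
  have hn0 : (0 : ℝ) ≤ ((k + 1).factorial : ℝ) := Nat.cast_nonneg _
  have h1 := mul_le_mul hsq hBB hB0.le (by positivity)
  have h2 := mul_le_mul_of_nonneg_left h1 hn0
  linarith

/-- The value at `σ` is nonnegative and the differences small. -/
theorem altSum_ite_re_xiLog_le (hRH : RHFor K) {σ : ℝ} (hσ : 1 / 2 < σ) (hσ1 : σ ≤ 1) (k : ℕ) :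
    altSum (k + 1) (fun j : ℕ => if j = 0 then 0 else (xiLog K ((σ + j : ℝ) : ℂ)).re) ≤
      4 * fdRatio (σ - 1 / 2) (k + 1) * (xiLog K ((2 : ℝ) : ℂ)).re := by
  have hne : ∀ j : ℕ, xiFun K ((σ + j : ℝ) : ℂ) ≠ 0 := fun j h0 => by
    have := re_eq_half_of_rh K hRH h0
    rw [Complex.ofReal_re] at this
    linarith [(Nat.cast_nonneg j : (0 : ℝ) ≤ j)]
  have h := hasSum_le (altSum_reTerm_le K hRH hσ hσ1 k)
    (hasSum_sum fun j _ => (hasSum_reTerm K (hne j)).mul_left _)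
    ((hasSum_reTerm K (xi_ne_zero_right K (s := ((2 : ℝ) : ℂ)) (by simp))).mul_left _)
  have h0 : 0 ≤ (xiLog K ((σ + (0 : ℕ) : ℝ) : ℂ)).re := by
    refine (hasSum_reTerm K (hne 0)).nonneg fun ρ => ?_
    rcases eq_or_ne (xiMult K ρ) 0 with hm | hm
    · simp [reTerm, hm]
    have hρ := re_eq_half_of_rh K hRH ((xiMult_ne_zero_iff K).1 hm)
    rw [reTerm, Complex.inv_re]
    refine mul_nonneg (Nat.cast_nonneg _) (div_nonneg ?_ (Complex.normSq_nonneg _))
    simp only [Complex.sub_re, Complex.ofReal_re, hρ, Nat.cast_zero]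
    linarith
  rw [altSum_ite]
  exact (add_le_of_nonpos_right (sub_nonpos.2 h0)).trans h

/-- The weight of a place of norm `q`. -/
def primeWeight (σ : ℝ) (k q : ℕ) : ℝ :=
  -altSum k fun j : ℕ => if j = 0 then 0 else placeWeight (σ + j) q

theorem placeWeight_hasSum {σ : ℝ} (hσ : 0 < σ) {q : ℕ} (hq : 2 ≤ q) :
    HasSum (fun m : ℕ => Real.log q * ((q : ℝ) ^ (-σ)) ^ (m + 1)) (placeWeight σ q) := by
  have hq2 : (1 : ℝ) < q := Nat.one_lt_cast.2 hq
  have hr : (q : ℝ) ^ (-σ) < 1 := Real.rpow_lt_one_of_one_lt_of_neg hq2 (by linarith)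
  have hr0 : 0 < (q : ℝ) ^ (-σ) := Real.rpow_pos_of_pos (by linarith) _
  have h := (((hasSum_geometric_of_lt_one hr0.le hr).mul_left ((q : ℝ) ^ (-σ))).mul_left
    (Real.log q))
  have e : Real.log q * ((q : ℝ) ^ (-σ) * (1 - (q : ℝ) ^ (-σ))⁻¹) = placeWeight σ q := by
    have hP : 1 < (q : ℝ) ^ σ := Real.one_lt_rpow hq2 hσ
    rw [placeWeight, Real.rpow_neg (by linarith), div_eq_mul_inv]
    field_simp
  rw [e] at h
  exact h.congr_fun fun m => by ring

theorem primeWeight_hasSum {σ : ℝ} (hσ : 0 < σ) (k : ℕ) {q : ℕ} (hq : 2 ≤ q) :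
    HasSum (fun m : ℕ => Real.log q * ((q : ℝ) ^ (-σ)) ^ (m + 1) *
      (1 - (1 - ((q : ℝ)⁻¹) ^ (m + 1)) ^ k)) (primeWeight σ k q) := by
  have hq0 : (0 : ℝ) < q := Nat.cast_pos.2 (by omega)
  have hs : HasSum (fun m : ℕ => -altSum k fun j : ℕ =>
      if j = 0 then 0 else Real.log q * ((q : ℝ) ^ (-(σ + j))) ^ (m + 1)) (primeWeight σ k q) := by
    refine HasSum.neg ?_
    refine hasSum_sum fun j _ => HasSum.mul_left _ ?_
    dsimp only
    split_ifs with hj
    · exact hasSum_zero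
    · exact placeWeight_hasSum (by positivity) hq
  refine hs.congr_fun fun m => ?_
  rw [altSum_ite, show (fun j : ℕ => Real.log q * ((q : ℝ) ^ (-(σ + j))) ^ (m + 1)) = fun j : ℕ =>
      Real.log q * ((q : ℝ) ^ (-σ)) ^ (m + 1) * (((q : ℝ)⁻¹) ^ (m + 1)) ^ j by
    funext j
    rw [neg_add, Real.rpow_add hq0, Real.rpow_neg hq0.le (j : ℝ), Real.rpow_natCast, mul_pow,
      ← inv_pow, ← pow_mul, ← pow_mul, mul_comm j, mul_assoc], altSum_mul_left, altSum_pow,
    Nat.cast_zero, add_zero]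
  ring

theorem primeWeight_nonneg {σ : ℝ} (hσ : 0 < σ) (k : ℕ) {q : ℕ} (hq : 2 ≤ q) :
    0 ≤ primeWeight σ k q := by
  have hx : (q : ℝ)⁻¹ ≤ 1 := inv_le_one_of_one_le₀ (Nat.one_le_cast.2 (by omega))
  exact (primeWeight_hasSum hσ k hq).nonneg fun m => mul_nonneg (mul_nonneg
    (Real.log_natCast_nonneg q) (pow_nonneg (Real.rpow_nonneg (Nat.cast_nonneg q) _) _))
    (sub_nonneg.2 (pow_le_one₀ (sub_nonneg.2 (pow_le_one₀ (by positivity) hx))
      (sub_le_self _ (by positivity))))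

/-- **The weights converge from below.** -/
theorem eventually_primeWeight {σ : ℝ} (hσ : 0 < σ) (q : ℕ) {η : ℝ} (hη : 0 < η) :
    ∀ᶠ k in atTop, placeWeight σ q - η ≤ primeWeight σ k q := by
  rcases Nat.lt_or_ge q 2 with hq | hq
  · filter_upwards with k
    have h0 : ∀ τ : ℝ, placeWeight τ q = 0 := fun τ => by
      interval_cases q <;> simp [placeWeight]
    simp [primeWeight, altSum, h0, hη.le]
  have hq1 : (1 : ℝ) < q := Nat.one_lt_cast.2 hq
  obtain ⟨M, hM⟩ := ((placeWeight_hasSum hσ hq).tendsto_sum_nat.eventually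
    (eventually_gt_nhds (sub_lt_self _ (half_pos hη)))).exists
  have hlim : Tendsto (fun k : ℕ => ∑ m ∈ Finset.range M, Real.log q *
      ((q : ℝ) ^ (-σ)) ^ (m + 1) * (1 - (1 - ((q : ℝ)⁻¹) ^ (m + 1)) ^ k)) atTop
      (𝓝 (∑ m ∈ Finset.range M, Real.log q * ((q : ℝ) ^ (-σ)) ^ (m + 1) * (1 - 0))) := by
    refine tendsto_finsetSum _ fun m _ => ((tendsto_pow_atTop_nhds_zero_of_lt_one ?_ ?_).const_sub
      1).const_mul _
    · exact sub_nonneg.2 (pow_le_one₀ (by positivity) (inv_le_one_of_one_le₀ hq1.le))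
    · exact sub_lt_self _ (by positivity)
  simp only [sub_zero, mul_one] at hlim
  have hgt : placeWeight σ q - η <
      ∑ m ∈ Finset.range M, Real.log q * ((q : ℝ) ^ (-σ)) ^ (m + 1) := by linarith
  filter_upwards [hlim.eventually (eventually_gt_nhds hgt)] with k hk
  refine hk.le.trans (sum_le_hasSum _ (fun m _ => ?_) (primeWeight_hasSum hσ k hq))
  have hx : (q : ℝ)⁻¹ ≤ 1 := inv_le_one_of_one_le₀ hq1.le
  exact mul_nonneg (mul_nonneg (Real.log_natCast_nonneg q)
    (pow_nonneg (Real.rpow_nonneg (Nat.cast_nonneg q) _) _))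
    (sub_nonneg.2 (pow_le_one₀ (sub_nonneg.2 (pow_le_one₀ (by positivity) hx))
      (sub_le_self _ (by positivity))))

theorem sum_primeWeight_le {σ : ℝ} (hσ : 1 / 2 < σ) (k : ℕ) (S : Finset ℕ) :
    ∑ q ∈ S, (placeCount K q : ℝ) * primeWeight σ k q ≤
      -altSum k (fun j : ℕ => if j = 0 then 0 else placeSum K (σ + j)) := by
  have hs : HasSum (fun v : HeightOneSpectrum (𝓞 K) => primeWeight σ k (absNorm v.asIdeal))
      (-altSum k fun j : ℕ => if j = 0 then 0 else placeSum K (σ + j)) := by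
    refine HasSum.neg ?_
    refine hasSum_sum fun j _ => HasSum.mul_left _ ?_
    dsimp only
    split_ifs with hj
    · exact hasSum_zero
    · have : (1 : ℝ) ≤ j := Nat.one_le_cast.2 (Nat.pos_of_ne_zero hj)
      exact hasSum_places K (by linarith)
  obtain ⟨T, hT⟩ : ∃ T, T = S.biUnion fun q => (finite_places_norm K q).toFinset := ⟨_, rfl⟩
  refine le_of_eq_of_le ?_ (sum_le_hasSum T (fun v _ =>
    primeWeight_nonneg (by linarith) k (NumberField.HeightOneSpectrum.one_lt_absNorm v)) hs)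
  rw [hT, Finset.sum_biUnion]
  · refine Finset.sum_congr rfl fun q _ => ?_
    rw [placeCount, Set.ncard_eq_toFinset_card _ (finite_places_norm K q),
      Finset.sum_eq_card_nsmul (b := primeWeight σ k q) fun v hv => ?_, nsmul_eq_mul]
    have h : absNorm v.asIdeal = q := by simpa using hv
    rw [h]
  · intro a _ b _ hab
    refine Finset.disjoint_left.2 fun v ha hb => hab ?_
    have h1 : absNorm v.asIdeal = a := by simpa using ha
    have h2 : absNorm v.asIdeal = b := by simpa using hb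
    exact h1.symm.trans h2

/-- **The infinite places.** -/
theorem altSum_archAt_le_fdRatio {σ : ℝ} (hσ : 0 < σ) (k : ℕ) :
    altSum (k + 1) (fun j : ℕ => archAt K (σ + j)) ≤ fdRatio σ k * finrank ℚ K := by
  have hR : altSum (k + 1) (fun j : ℕ => realRate (σ + j)) ≤ fdRatio σ k := by
    have h := altSum_neg_digamma_le_fdRatio k (x := σ / 2) (s := 1 / 2) (by linarith) (by norm_num)
      (by norm_num)
    rw [show σ / 2 / (1 / 2) = σ by ring] at h
    rw [show (fun j : ℕ => realRate (σ + j)) = fun j : ℕ => Real.log π / 2 +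
        1 / 2 * -(Complex.digamma ((σ / 2 + j * (1 / 2) : ℝ) : ℂ)).re by
      funext j
      rw [realRate, show (((σ + j : ℝ) : ℂ) / 2) = ((σ / 2 + j * (1 / 2) : ℝ) : ℂ) by
        push_cast; ring]
      ring, altSum_add, altSum_const (Nat.succ_pos k), zero_add, altSum_mul_left]
    exact (mul_le_mul_of_nonneg_left h (by norm_num)).trans (le_of_eq (by ring))
  have hC : altSum (k + 1) (fun j : ℕ => complexRate (σ + j)) ≤ fdRatio σ k := by
    have h := altSum_neg_digamma_le_fdRatio k (x := σ) (s := 1) hσ one_pos le_rfl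
    rw [show (fun j : ℕ => complexRate (σ + j)) = fun j : ℕ => Real.log (2 * π) +
        -(Complex.digamma ((σ + j * 1 : ℝ) : ℂ)).re by
      funext j
      rw [complexRate, mul_one]
      ring, altSum_add, altSum_const (Nat.succ_pos k), zero_add]
    exact h.trans (le_of_eq (by rw [inv_one, one_mul, div_one]))
  simp only [archAt]
  rw [altSum_add, altSum_mul_left, altSum_mul_left, ← degree_split K]
  have r0 : (0 : ℝ) ≤ nrRealPlaces K := Nat.cast_nonneg _
  have c0 : (0 : ℝ) ≤ nrComplexPlaces K := Nat.cast_nonneg _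
  have f0 := (fdRatio_pos hσ k).le
  nlinarith [mul_le_mul_of_nonneg_left hR r0, mul_le_mul_of_nonneg_left hC c0, mul_nonneg c0 f0]

end FA.GRHBasicInequality

end
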